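/-
S31lib, block ASM (helper9): the assembly of S31 from the blocks
* RG (rigidity: a residually absolutely irreducible 2-dimensional representation over a local ring
  is trivial on `τ` as soon as `tr ρ(τσ) = tr ρ(σ)` for all `σ`),
* TC (trace comparison with a finite family of representations over DVRs),
* WC (weak Chebotarev), LAT (the lattice property of the points of the anemic Hecke algebra),
* S30 (the representations attached to the points).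
The blocks enter as hypotheses (`BrickRG`, `BrickTC`, `BrickWC`, `BrickLAT`).
-/
import Fermat.Agent.S30
import Fermat.Prelude.Def_CuspForm_HeckeGaloisRepDatum

set_option autoImplicit false
set_option linter.style.haveILetI false
set_option linter.unusedSectionVars false

noncomputable section

namespace Fermat.Agent.S31lib.ASM

open Polynomial CuspForm

/-- `ℚ̄` -/
local notation "Qb" => AlgebraicClosure ℚ
/-- `G_ℚ` -/
local notation "GQ" => (AlgebraicClosure ℚ ≃ₐ[ℚ] AlgebraicClosure ℚ)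

/-- block RG (helper4), as a statement. -/
def BrickRG : Prop :=
  ∀ {T : Type} [CommRing T] [IsLocalRing T] (ρ : GaloisRepAdic T),
    ρ.residual.IsAbsolutelyIrreducible → ∀ τ : GQ,
    (∀ σ : GQ, LinearMap.trace T ρ.V (ρ.ρ (τ * σ)) = LinearMap.trace T ρ.V (ρ.ρ σ)) → ρ.ρ τ = 1

/-- block TC (helper4), as a statement. -/
def BrickTC : Prop :=
  ∀ {p : ℕ}, p.Prime →
    ∀ {T : Type} [CommRing T] [IsLocalRing T] [IsHausdorff (IsLocalRing.maximalIdeal T) T],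
    (p : T) ∈ IsLocalRing.maximalIdeal T →
    ∀ {B : Type} [CommRing B] (π : B →+* T) (ρ : GaloisRepAdic T)
    (good : ℕ → Prop) (t : ℕ → B),
    (∀ ℓ, good ℓ → ∀ A : ValuationSubring Qb, A.LiesOverPrime ℓ → ∀ φ : GQ, A.IsFrobeniusAt φ ℓ →
      LinearMap.charpoly (ρ.ρ φ) = X ^ 2 - C (π (t ℓ)) * X + C (ℓ : T)) →
    ∀ {ι : Type} [Finite ι] (R : ι → Type) [∀ i, CommRing (R i)] [∀ i, IsDomain (R i)]
    [∀ i, IsDiscreteValuationRing (R i)],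
    (∀ i, (p : R i) ∈ IsLocalRing.maximalIdeal (R i)) → (∀ i, (p : R i) ≠ 0) →
    ∀ (χ : ∀ i, B →+* R i) (ρ' : ∀ i, GaloisRepAdic (R i)),
    (∀ i ℓ, good ℓ → ∀ A : ValuationSubring Qb, A.LiesOverPrime ℓ → ∀ φ : GQ,
      A.IsFrobeniusAt φ ℓ →
      LinearMap.charpoly ((ρ' i).ρ φ) = X ^ 2 - C (χ i (t ℓ)) * X + C (ℓ : R i)) →
    (∃ c : ℕ, ∀ (r : B) (m : ℕ), (∀ i, χ i r ∈ Ideal.span {(p : R i) ^ m}) →
      r ∈ Ideal.span {(p : B) ^ (m - c)}) →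
    (∀ L : IntermediateField ℚ Qb, FiniteDimensional ℚ L → ∀ σ : GQ,
      ∃ (ℓ : ℕ) (A : ValuationSubring Qb) (φ : GQ) (j : ℕ), good ℓ ∧ A.LiesOverPrime ℓ ∧
        A.IsFrobeniusAt φ ℓ ∧ ∀ x ∈ L, (φ ^ j) x = σ x) →
    ∀ τ : GQ, (∀ i, (ρ' i).ρ τ = 1) →
    ∀ σ : GQ, LinearMap.trace T ρ.V (ρ.ρ (τ * σ)) = LinearMap.trace T ρ.V (ρ.ρ σ)

/-- the lattice transfer lemma of block TC (helper4), as a statement. -/
def BrickTransfer : Prop :=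
  ∀ {p : ℕ} {B : Type} [CommRing B] {ι : Type} (O R : ι → Type) [∀ i, CommRing (O i)]
    [∀ i, IsDomain (O i)] [∀ i, IsDiscreteValuationRing (O i)] [∀ i, CommRing (R i)]
    [∀ i, IsDomain (R i)] [∀ i, Algebra (O i) (R i)]
    [∀ i, IsLocalHom (algebraMap (O i) (R i))],
    (∀ i, Function.Injective (algebraMap (O i) (R i))) → (∀ i, (p : O i) ≠ 0) →
    ∀ (χ : ∀ i, B →+* O i),
    (∃ c : ℕ, ∀ (r : B) (m : ℕ), (∀ i, χ i r ∈ Ideal.span {(p : O i) ^ m}) →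
      r ∈ Ideal.span {(p : B) ^ (m - c)}) →
    ∃ c : ℕ, ∀ (r : B) (m : ℕ),
      (∀ i, ((algebraMap (O i) (R i)).comp (χ i)) r ∈ Ideal.span {(p : R i) ^ m}) →
        r ∈ Ideal.span {(p : B) ^ (m - c)}

/-- block WC (weak Chebotarev, helper8), as a statement. -/
def BrickWC : Prop :=
  ∀ (S₀ : Finset ℕ) (L : IntermediateField ℚ Qb), FiniteDimensional ℚ L → ∀ σ : GQ,
    ∃ (ℓ : ℕ) (A : ValuationSubring Qb) (φ : GQ) (j : ℕ), ℓ.Prime ∧ ℓ ∉ S₀ ∧ A.LiesOverPrime ℓ ∧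
      A.IsFrobeniusAt φ ℓ ∧ ∀ x ∈ L, (φ ^ j) x = σ x

/-- block LAT (helper5, on top of PET), as a statement. -/
def BrickLAT : Prop :=
  ∀ (N : ℕ) [NeZero N] (S : Finset ℕ), (∀ q : ℕ, q.Prime → q ∣ N → q ∈ S) →
    ∀ (p : ℕ), p.Prime →
    ∃ (ι : Type) (_ : Finite ι) (O : ι → Type) (_ : ∀ i, CommRing (O i))
      (_ : ∀ i, IsDomain (O i)) (_ : ∀ i, IsDiscreteValuationRing (O i))
      (_ : ∀ i, IsAdicComplete (IsLocalRing.maximalIdeal (O i)) (O i))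
      (_ : ∀ i, Finite (IsLocalRing.ResidueField (O i))) (_ : ∀ i, CharZero (O i))
      (χ : ∀ i, CuspForm.heckeAlgebra N 2 (↑S : Set ℕ) →+* O i),
      (∀ i, (p : O i) ∈ IsLocalRing.maximalIdeal (O i)) ∧
      ∃ c : ℕ, ∀ (r : CuspForm.heckeAlgebra N 2 (↑S : Set ℕ)) (m : ℕ),
        (∀ i, χ i r ∈ Ideal.span {(p : O i) ^ m}) →
          r ∈ Ideal.span {(p : CuspForm.heckeAlgebra N 2 (↑S : Set ℕ)) ^ (m - c)}

variable {p : ℕ} {N : ℕ} [NeZero N] {S : Finset ℕ}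
  {𝒪 : Type} [CommRing 𝒪] [IsDomain 𝒪] [IsDiscreteValuationRing 𝒪]
  [IsAdicComplete (IsLocalRing.maximalIdeal 𝒪) 𝒪]
  {θ : CuspForm.heckeAlgebra N 2 (↑S : Set ℕ) →+* IsLocalRing.ResidueField 𝒪}
  {T : Type} [CommRing T] [IsLocalRing T] [IsNoetherianRing T]
  [IsAdicComplete (IsLocalRing.maximalIdeal T) T] [Algebra 𝒪 T] [IsLocalHom (algebraMap 𝒪 T)]
  [Module.Finite 𝒪 T] [Module.Free 𝒪 T]

/-- **S31 from the blocks.** -/
theorem s31_of_bricks (hRG : BrickRG) (hTC : BrickTC) (hTr : BrickTransfer) (hWC : BrickWC)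
    (hLAT : BrickLAT) (hp : p.Prime)
    (hp𝒪 : (p : 𝒪) ∈ IsLocalRing.maximalIdeal 𝒪) (hpS : p ∈ S)
    (hNS : ∀ q : ℕ, q.Prime → q ∣ N → q ∈ S)
    (H : CuspForm.HeckeGaloisRepDatum N (↑S : Set ℕ) 𝒪 θ T)
    (q : ℕ) (hq : q.Prime) (hqS : q ∉ S) :
    H.ρ.IsUnramifiedAt q := by
  classical
  haveI : Fact p.Prime := ⟨hp⟩
  -- `p ∈ 𝔪_T`
  have hpT : (p : T) ∈ IsLocalRing.maximalIdeal T := by
    have h1 : (p : T) = algebraMap 𝒪 T (p : 𝒪) := (map_natCast _ p).symm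
    rw [h1]
    exact map_nonunit (algebraMap 𝒪 T) _ hp𝒪
  -- the points
  obtain ⟨ι, hι, O, i1, i2, i3, i4, i5, i6, χ, hpO, hlat⟩ := hLAT N S hNS p hp
  -- the S30 representations
  have h30 := fun i => Fermat.Agent.S30.result p N S hpS hNS (O i) (hpO i) (χ i)
  choose R j1 j2 j3 j4 j5 j6 j7 j8 j9 hinj ρ' hchar hunr using h30
  -- the good primes and the Hecke operators
  set good : ℕ → Prop := fun ℓ => ℓ.Prime ∧ ¬ ℓ ∣ N ∧ ℓ ∉ (↑S : Set ℕ) with hgood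
  set t : ℕ → CuspForm.heckeAlgebra N 2 (↑S : Set ℕ) := fun ℓ =>
    if h : ℓ.Prime ∧ ¬ ℓ ∣ N ∧ ℓ ∉ (↑S : Set ℕ) then CuspForm.heckeAlgebra.T h.1 h.2.1 h.2.2 else 0
    with ht
  have ht_good : ∀ ℓ (h : good ℓ), t ℓ = CuspForm.heckeAlgebra.T h.1 h.2.1 h.2.2 := by
    intro ℓ h
    rw [ht]
    exact dif_pos h
  have hp0 : ∀ i, (p : O i) ≠ 0 := fun i => Nat.cast_ne_zero.mpr hp.ne_zero
  have hpR0 : ∀ i, (p : R i) ≠ 0 := fun i => Nat.cast_ne_zero.mpr hp.ne_zero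
  have hpR : ∀ i, (p : R i) ∈ IsLocalRing.maximalIdeal (R i) := by
    intro i
    have h1 : (p : R i) = algebraMap (O i) (R i) (p : O i) := (map_natCast _ p).symm
    rw [h1]
    exact map_nonunit (algebraMap (O i) (R i)) _ (hpO i)
  have hlat' := hTr (p := p) O R hinj hp0 χ hlat
  intro P hP τ hτ
  -- `q ∤ N`, `q ≠ p`
  have hqN : ¬ q ∣ N := fun h => hqS (hNS q hq h)
  have hqp : q ≠ p := by
    rintro rfl
    exact hqS hpS
  apply hRG H.ρ H.residual_absIrr τ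
  refine hTC hp hpT H.π H.ρ good t ?_ R hpR hpR0
    (fun i => (algebraMap (O i) (R i)).comp (χ i)) ρ' ?_ hlat' ?_ τ ?_
  · intro ℓ hℓ A hA φ hφ
    rw [ht_good ℓ hℓ]
    exact H.charpoly_frob ℓ hℓ.1 hℓ.2.1 hℓ.2.2 A hA φ hφ
  · intro i ℓ hℓ A hA φ hφ
    rw [ht_good ℓ hℓ]
    exact hchar i ℓ hℓ.1 hℓ.2.1 hℓ.2.2 A hA φ hφ
  · intro L hL σ
    obtain ⟨ℓ, A, φ, j, hℓ, hℓS₀, hA, hφ, hj⟩ := hWC (S ∪ N.primeFactors) L hL σ
    refine ⟨ℓ, A, φ, j, ⟨hℓ, ?_, ?_⟩, hA, hφ, hj⟩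
    · intro hdvd
      exact hℓS₀ (Finset.mem_union_right _
        (Nat.mem_primeFactors.mpr ⟨hℓ, hdvd, NeZero.ne N⟩))
    · intro hS
      exact hℓS₀ (Finset.mem_union_left _ (Finset.mem_coe.mp hS))
  · intro i
    exact hunr i q hq hqN hqp P hP τ hτ

end Fermat.Agent.S31lib.ASM
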