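/-
S31lib, block ASM (helper9): S31 from the finished blocks RG, TC (helper4), WC (helper8) and the
two blocks still to come,
* `BrickRed`    : the anemic Hecke algebra is reduced (block PET), and
* `BrickLATRed` : the lattice family of points of a reduced anemic Hecke algebra (block LAT;
  verbatim helper5's announced `LAT.brickLAT_of_isReduced`).
-/
import Fermat.Agent.S31lib.ASM.Assemble
import Fermat.Agent.S31lib.RG.Rigidity
import Fermat.Agent.S31lib.TC.TraceCompare
import Fermat.Agent.S31lib.WC.Export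

set_option autoImplicit false
set_option linter.style.haveILetI false
set_option linter.unusedSectionVars false

noncomputable section

namespace Fermat.Agent.S31lib.ASM

open Polynomial CuspForm

/-- block RG, from helper4's `RG.eq_one_of_trace_eq`. -/
theorem brickRG : BrickRG := fun ρ habs τ h =>
  Fermat.Agent.S31lib.RG.eq_one_of_trace_eq ρ habs τ h

/-- block TC, from helper4's `TC.trace_mul_eq_of_family`. -/
theorem brickTC : BrickTC :=
  fun hp _ _ _ _ hpT _ _ π ρ good t hρ _ _ R _ _ _ hpR hpR0 χ ρ' hρ' hlat hWC τ hτ =>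
    Fermat.Agent.S31lib.TC.trace_mul_eq_of_family hp hpT π ρ good t hρ R hpR hpR0 χ ρ' hρ' hlat
      hWC τ hτ

/-- the lattice transfer, from helper4's `TC.lattice_transfer`. -/
theorem brickTransfer : BrickTransfer := fun O R _ _ _ _ _ _ _ hinj hp0 χ hlat =>
  Fermat.Agent.S31lib.TC.lattice_transfer O R hinj hp0 χ hlat

/-- block WC, helper8's `WC.brickWC`. -/
theorem brickWC : BrickWC := Fermat.Agent.S31lib.WC.brickWC

/-- block PET (final form), as a statement: the anemic Hecke algebra is reduced. -/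
def BrickRed : Prop :=
  ∀ (N : ℕ) [NeZero N] (S : Finset ℕ), (∀ q : ℕ, q.Prime → q ∣ N → q ∈ S) →
    IsReduced (CuspForm.heckeAlgebra N 2 (↑S : Set ℕ))

/-- block LAT (final form), as a statement: `BrickLAT` for a reduced anemic Hecke algebra. -/
def BrickLATRed : Prop :=
  ∀ (N : ℕ) [NeZero N] (S : Finset ℕ), IsReduced (CuspForm.heckeAlgebra N 2 (↑S : Set ℕ)) →
    ∀ (p : ℕ), p.Prime →
    ∃ (ι : Type) (_ : Finite ι) (O : ι → Type) (_ : ∀ i, CommRing (O i))
      (_ : ∀ i, IsDomain (O i)) (_ : ∀ i, IsDiscreteValuationRing (O i))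
      (_ : ∀ i, IsAdicComplete (IsLocalRing.maximalIdeal (O i)) (O i))
      (_ : ∀ i, Finite (IsLocalRing.ResidueField (O i))) (_ : ∀ i, CharZero (O i))
      (χ : ∀ i, CuspForm.heckeAlgebra N 2 (↑S : Set ℕ) →+* O i),
      (∀ i, (p : O i) ∈ IsLocalRing.maximalIdeal (O i)) ∧
      ∃ c : ℕ, ∀ (r : CuspForm.heckeAlgebra N 2 (↑S : Set ℕ)) (m : ℕ),
        (∀ i, χ i r ∈ Ideal.span {(p : O i) ^ m}) →
          r ∈ Ideal.span {(p : CuspForm.heckeAlgebra N 2 (↑S : Set ℕ)) ^ (m - c)}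

/-- block LAT from its two halves. -/
theorem brickLAT_of (hRed : BrickRed) (hLR : BrickLATRed) : BrickLAT :=
  fun N _ S hNS p hp => hLR N S (hRed N S hNS) p hp

variable {p : ℕ} {N : ℕ} [NeZero N] {S : Finset ℕ}
  {𝒪 : Type} [CommRing 𝒪] [IsDomain 𝒪] [IsDiscreteValuationRing 𝒪]
  [IsAdicComplete (IsLocalRing.maximalIdeal 𝒪) 𝒪]
  {θ : CuspForm.heckeAlgebra N 2 (↑S : Set ℕ) →+* IsLocalRing.ResidueField 𝒪}
  {T : Type} [CommRing T] [IsLocalRing T] [IsNoetherianRing T]
  [IsAdicComplete (IsLocalRing.maximalIdeal T) T] [Algebra 𝒪 T] [IsLocalHom (algebraMap 𝒪 T)]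
  [Module.Finite 𝒪 T] [Module.Free 𝒪 T]

/-- **S31 from blocks PET and LAT** (all the other blocks are discharged). -/
theorem s31_of_red_lat (hRed : BrickRed) (hLR : BrickLATRed) (hp : p.Prime)
    (hp𝒪 : (p : 𝒪) ∈ IsLocalRing.maximalIdeal 𝒪) (hpS : p ∈ S)
    (hNS : ∀ q : ℕ, q.Prime → q ∣ N → q ∈ S)
    (H : CuspForm.HeckeGaloisRepDatum N (↑S : Set ℕ) 𝒪 θ T)
    (q : ℕ) (hq : q.Prime) (hqS : q ∉ S) :
    H.ρ.IsUnramifiedAt q :=
  s31_of_bricks brickRG brickTC brickTransfer brickWC (brickLAT_of hRed hLR) hp hp𝒪 hpS hNS H q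
    hq hqS

/-- **S31 from block LAT alone, for the given level**: only the reducedness of the one Hecke
algebra in play is used. -/
theorem s31_of_lat (hLAT : BrickLAT) (hp : p.Prime)
    (hp𝒪 : (p : 𝒪) ∈ IsLocalRing.maximalIdeal 𝒪) (hpS : p ∈ S)
    (hNS : ∀ q : ℕ, q.Prime → q ∣ N → q ∈ S)
    (H : CuspForm.HeckeGaloisRepDatum N (↑S : Set ℕ) 𝒪 θ T)
    (q : ℕ) (hq : q.Prime) (hqS : q ∉ S) :
    H.ρ.IsUnramifiedAt q :=
  s31_of_bricks brickRG brickTC brickTransfer brickWC hLAT hp hp𝒪 hpS hNS H q hq hqS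

end Fermat.Agent.S31lib.ASM
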